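import Fermat.Agent.H51.S58.HasseGeneric

/-!
# S58-HASSE2 (helper5): the Hasse relation for the supersingular curves
`y² + y = x³ + x + 1` and `y² + y = x³ + x` over `𝔽₂`

For `E = ⟨0,0,1,1,1⟩` (`#E(𝔽₂) = 1`, trace `2`) and `E = ⟨0,0,1,1,0⟩` (`#E(𝔽₂) = 5`,
trace `-2`) we prove `Fermat.Agent.H40.HasseRelation E`, via helper51's
`hasseRelation_of_generic` and the explicit characteristic-2 duplication and addition formulas:
`2 (x, y) = (x⁴ + 1, (x² + 1)(x⁴ + x + 1) + y + 1)` and `φ² P + 2 P = ± φ (2 P)`.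
-/

set_option autoImplicit false

namespace Fermat.Agent.H5.S58

open WeierstrassCurve WeierstrassCurve.Affine

section char2

variable {K : Type*} [Field K] [DecidableEq K] (W : WeierstrassCurve K)

/-- Duplication on `y² + y = x³ + x + c` in characteristic `2`. -/
theorem ss_dbl (h2 : (2 : K) = 0) (ha₁ : W.a₁ = 0) (ha₂ : W.a₂ = 0) (ha₃ : W.a₃ = 1)
    (ha₄ : W.a₄ = 1) {x y : K} (h : W.toAffine.Nonsingular x y) :
    ∃ h' : W.toAffine.Nonsingular (x ^ 4 + 1) ((x ^ 2 + 1) * (x ^ 4 + x + 1) + y + 1),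
      Point.some x y h + Point.some x y h = Point.some _ _ h' := by
  have hden : y - W.toAffine.negY x y = 1 := by
    simp only [negY, ha₁, ha₃]
    linear_combination y * h2
  have hy : y ≠ W.toAffine.negY x y := by
    intro e
    rw [← e, sub_self] at hden
    exact zero_ne_one hden
  have hs : W.toAffine.slope x x y y = x ^ 2 + 1 := by
    rw [slope_of_Y_ne rfl hy, hden, div_one, ha₁, ha₂, ha₄]
    linear_combination x ^ 2 * h2
  have hX : W.toAffine.addX x x (W.toAffine.slope x x y y) = x ^ 4 + 1 := by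
    rw [hs]
    simp only [addX, ha₁, ha₂]
    linear_combination (x ^ 2 - x) * h2
  have hY : W.toAffine.addY x x y (W.toAffine.slope x x y y) =
      (x ^ 2 + 1) * (x ^ 4 + x + 1) + y + 1 := by
    rw [addY, negAddY, hX, hs]
    simp only [negY, ha₁, ha₃]
    linear_combination (-(x ^ 2 + 1) * (x ^ 4 + 1) - y - 1) * h2
  have hns := nonsingular_add h h (fun hxy => hy hxy.right)
  have e := Point.add_self_of_Y_ne (h₁ := h) hy
  rw [hX, hY] at hns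
  refine ⟨hns, ?_⟩
  rw [e, Point.some.injEq]
  exact ⟨hX, hY⟩

/-- Addition of two points whose `x`-coordinates differ by `1`, on `y² + y = x³ + a₄ x + c`
in characteristic `2`. -/
theorem ss_add (h2 : (2 : K) = 0) (ha₁ : W.a₁ = 0) (ha₂ : W.a₂ = 0) (ha₃ : W.a₃ = 1)
    {x₁ y₁ y₂ : K} (h₁ : W.toAffine.Nonsingular x₁ y₁)
    (h₂ : W.toAffine.Nonsingular (x₁ + 1) y₂) :
    ∃ h' : W.toAffine.Nonsingular ((y₁ + y₂) ^ 2 + 1)
        ((y₁ + y₂) * ((y₁ + y₂) ^ 2 + 1 + x₁) + y₁ + 1),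
      Point.some x₁ y₁ h₁ + Point.some (x₁ + 1) y₂ h₂ = Point.some _ _ h' := by
  have hx : x₁ ≠ x₁ + 1 := by
    intro e
    have : (0 : K) = 1 := by linear_combination e
    exact zero_ne_one this
  have hden : x₁ - (x₁ + 1) = -1 := by ring
  have hs : W.toAffine.slope x₁ (x₁ + 1) y₁ y₂ = y₁ + y₂ := by
    rw [slope_of_X_ne hx, hden, div_neg, div_one]
    linear_combination (-y₁) * h2
  have hX : W.toAffine.addX x₁ (x₁ + 1) (W.toAffine.slope x₁ (x₁ + 1) y₁ y₂) =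
      (y₁ + y₂) ^ 2 + 1 := by
    rw [hs]
    simp only [addX, ha₁, ha₂]
    linear_combination (-x₁ - 1) * h2
  have hY : W.toAffine.addY x₁ (x₁ + 1) y₁ (W.toAffine.slope x₁ (x₁ + 1) y₁ y₂) =
      (y₁ + y₂) * ((y₁ + y₂) ^ 2 + 1 + x₁) + y₁ + 1 := by
    rw [addY, negAddY, hX, hs]
    simp only [negY, ha₁, ha₃]
    linear_combination (-(y₁ + y₂) * ((y₁ + y₂) ^ 2 + 1) - y₁ - 1) * h2
  have hns := nonsingular_add h₁ h₂ (fun hxy => hx hxy.left)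
  have e := Point.add_of_X_ne (h₁ := h₁) (h₂ := h₂) hx
  rw [hX, hY] at hns
  refine ⟨hns, ?_⟩
  rw [e, Point.some.injEq]
  exact ⟨hX, hY⟩

/-- `φ² P + 2 P = φ (2 P)` in coordinates, on `y² + y = x³ + x + 1`. -/
theorem ss_key_one (h2 : (2 : K) = 0) (ha₁ : W.a₁ = 0) (ha₂ : W.a₂ = 0) (ha₃ : W.a₃ = 1)
    (ha₄ : W.a₄ = 1) (ha₆ : W.a₆ = 1) {x y : K} (h : W.toAffine.Nonsingular x y)
    (h4 : W.toAffine.Nonsingular (x ^ 4) (y ^ 4))
    (hD : W.toAffine.Nonsingular (x ^ 4 + 1) ((x ^ 2 + 1) * (x ^ 4 + x + 1) + y + 1)) :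
    ∃ h' : W.toAffine.Nonsingular ((x ^ 4 + 1) ^ 2)
        (((x ^ 2 + 1) * (x ^ 4 + x + 1) + y + 1) ^ 2),
      Point.some _ _ h4 + Point.some _ _ hD = Point.some _ _ h' := by
  have heq := (W.toAffine.equation_iff x y).mp h.1
  rw [ha₁, ha₂, ha₃, ha₄, ha₆] at heq
  have hμ : y ^ 4 + ((x ^ 2 + 1) * (x ^ 4 + x + 1) + y + 1) = x ^ 4 := by
    linear_combination (x^3 + x + y^2 - y + 2) * heq +
      (x^6 + x^4 - x^3*y + 2*x^3 + x^2 - x*y + 2*x - y + 2) * h2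
  obtain ⟨h', e⟩ := ss_add W h2 ha₁ ha₂ ha₃ h4 hD
  have hX : (y ^ 4 + ((x ^ 2 + 1) * (x ^ 4 + x + 1) + y + 1)) ^ 2 + 1 = (x ^ 4 + 1) ^ 2 := by
    rw [hμ]
    linear_combination (-x ^ 4) * h2
  have hY : (y ^ 4 + ((x ^ 2 + 1) * (x ^ 4 + x + 1) + y + 1)) *
      ((y ^ 4 + ((x ^ 2 + 1) * (x ^ 4 + x + 1) + y + 1)) ^ 2 + 1 + x ^ 4) + y ^ 4 + 1 =
      ((x ^ 2 + 1) * (x ^ 4 + x + 1) + y + 1) ^ 2 := by
    rw [hμ]
    linear_combination (x^3 + x + y^2 - y + 1) * heq +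
      (-x^10 - x^9 - x^8 - 2*x^7 - x^6*y - 3*x^6 - 2*x^5 - x^4*y - 2*x^4 - 2*x^3*y - 2*x^3
        - x^2*y - 2*x^2 - 2*x*y - x - 3*y - 1) * h2
  have hns := h'
  rw [hY, hX] at hns
  refine ⟨hns, ?_⟩
  rw [e, Point.some.injEq]
  exact ⟨hX, hY⟩

/-- `φ² P + 2 P = - φ (2 P)` in coordinates, on `y² + y = x³ + x`. -/
theorem ss_key_zero (h2 : (2 : K) = 0) (ha₁ : W.a₁ = 0) (ha₂ : W.a₂ = 0) (ha₃ : W.a₃ = 1)
    (ha₄ : W.a₄ = 1) (ha₆ : W.a₆ = 0) {x y : K} (h : W.toAffine.Nonsingular x y)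
    (h4 : W.toAffine.Nonsingular (x ^ 4) (y ^ 4))
    (hD : W.toAffine.Nonsingular (x ^ 4 + 1) ((x ^ 2 + 1) * (x ^ 4 + x + 1) + y + 1)) :
    ∃ h' : W.toAffine.Nonsingular ((x ^ 4 + 1) ^ 2)
        (W.toAffine.negY ((x ^ 4 + 1) ^ 2) (((x ^ 2 + 1) * (x ^ 4 + x + 1) + y + 1) ^ 2)),
      Point.some _ _ h4 + Point.some _ _ hD = Point.some _ _ h' := by
  have heq := (W.toAffine.equation_iff x y).mp h.1
  rw [ha₁, ha₂, ha₃, ha₄, ha₆] at heq
  have hμ : y ^ 4 + ((x ^ 2 + 1) * (x ^ 4 + x + 1) + y + 1) = x ^ 4 := by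
    linear_combination (x^3 + x + y^2 - y + 1) * heq +
      (x^6 + x^4 - x^3*y + x^3 + x^2 - x*y + x + 1) * h2
  obtain ⟨h', e⟩ := ss_add W h2 ha₁ ha₂ ha₃ h4 hD
  have hX : (y ^ 4 + ((x ^ 2 + 1) * (x ^ 4 + x + 1) + y + 1)) ^ 2 + 1 = (x ^ 4 + 1) ^ 2 := by
    rw [hμ]
    linear_combination (-x ^ 4) * h2
  have hY : (y ^ 4 + ((x ^ 2 + 1) * (x ^ 4 + x + 1) + y + 1)) *
      ((y ^ 4 + ((x ^ 2 + 1) * (x ^ 4 + x + 1) + y + 1)) ^ 2 + 1 + x ^ 4) + y ^ 4 + 1 =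
      W.toAffine.negY ((x ^ 4 + 1) ^ 2) (((x ^ 2 + 1) * (x ^ 4 + x + 1) + y + 1) ^ 2) := by
    rw [hμ]
    simp only [negY, ha₁, ha₃]
    linear_combination (x^3 + x + y^2 - y + 2) * heq +
      (x^12 + x^10 + x^9 + 2*x^8 + 2*x^7 + x^6*y + 4*x^6 + 2*x^5 + x^4*y + 5*x^4 + 4*x^3
        + x^2*y + 3*x^2 + 3*x + y + 3) * h2
  have hns := h'
  rw [hY, hX] at hns
  refine ⟨hns, ?_⟩
  rw [e, Point.some.injEq]
  exact ⟨hX, hY⟩

end char2

section assembly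

variable (E : WeierstrassCurve (ZMod 2)) (K : Type) [Field K] [DecidableEq K]
  [Algebra (ZMod 2) K]

omit [DecidableEq K] in
theorem two_eq_zero_of_algebra_zmod_two : (2 : K) = 0 := by
  have h : (2 : ZMod 2) = 0 := by decide
  have := congrArg (algebraMap (ZMod 2) K) h
  rw [map_zero] at this
  rwa [map_ofNat] at this

/-- The Frobenius on points over `𝔽₂`, in coordinates. -/
theorem frobPt_some_two {x y : K} (h : (E⁄K).Nonsingular x y) :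
    ∃ h' : (E⁄K).Nonsingular (x ^ 2) (y ^ 2),
      Fermat.Agent.H40.frobPt E K (Point.some x y h) = Point.some _ _ h' := by
  obtain ⟨h', e⟩ := Fermat.Agent.H40.frobPt_some E K h
  have key : ∀ n : ℕ, n = 2 → ∀ h0 : (E⁄K).Nonsingular (x ^ n) (y ^ n),
      ∃ h' : (E⁄K).Nonsingular (x ^ 2) (y ^ 2),
        Point.some (x ^ n) (y ^ n) h0 = Point.some (x ^ 2) (y ^ 2) h' := by
    rintro n rfl h0
    exact ⟨h0, rfl⟩
  obtain ⟨h'', e'⟩ := key _ (ZMod.card 2) h'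
  exact ⟨h'', e.trans e'⟩

/-- The Frobenius squared on points over `𝔽₂`, in coordinates. -/
theorem frobPt_frobPt_some_two {x y : K} (h : (E⁄K).Nonsingular x y) :
    ∃ h' : (E⁄K).Nonsingular (x ^ 4) (y ^ 4),
      Fermat.Agent.H40.frobPt E K (Fermat.Agent.H40.frobPt E K (Point.some x y h)) =
        Point.some _ _ h' := by
  obtain ⟨h₁, e₁⟩ := frobPt_some_two E K h
  obtain ⟨h₂, e₂⟩ := frobPt_some_two E K h₁
  have ex : (x ^ 2) ^ 2 = x ^ 4 := by ring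
  have ey : (y ^ 2) ^ 2 = y ^ 4 := by ring
  have h₃ := h₂
  rw [ex, ey] at h₃
  refine ⟨h₃, ?_⟩
  rw [e₁, e₂, Point.some.injEq]
  exact ⟨ex, ey⟩

end assembly

/-- The Hasse relation for a curve `y² + y = x³ + x + 1` over `𝔽₂` with trace `2`. -/
theorem hasseRelation_ss_one (E : WeierstrassCurve (ZMod 2)) (hΔ : E.Δ ≠ 0)
    (ha₁ : E.a₁ = 0) (ha₂ : E.a₂ = 0) (ha₃ : E.a₃ = 1) (ha₄ : E.a₄ = 1) (ha₆ : E.a₆ = 1)
    (htr : E.traceOfFrobenius = 2) : Fermat.Agent.H40.HasseRelation E := by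
  apply Fermat.Agent.H51.S58.hasseRelation_of_generic E hΔ
  intro K _ _ _ _
  refine ⟨∅, fun x y hxy _ => ?_⟩
  have h2 : (2 : K) = 0 := two_eq_zero_of_algebra_zmod_two K
  have hb₁ : (E⁄K).a₁ = 0 := by
    change algebraMap (ZMod 2) K E.a₁ = 0
    rw [ha₁, map_zero]
  have hb₂ : (E⁄K).a₂ = 0 := by
    change algebraMap (ZMod 2) K E.a₂ = 0
    rw [ha₂, map_zero]
  have hb₃ : (E⁄K).a₃ = 1 := by
    change algebraMap (ZMod 2) K E.a₃ = 1
    rw [ha₃, map_one]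
  have hb₄ : (E⁄K).a₄ = 1 := by
    change algebraMap (ZMod 2) K E.a₄ = 1
    rw [ha₄, map_one]
  have hb₆ : (E⁄K).a₆ = 1 := by
    change algebraMap (ZMod 2) K E.a₆ = 1
    rw [ha₆, map_one]
  obtain ⟨hD, eD⟩ := ss_dbl (E.baseChange K) h2 hb₁ hb₂ hb₃ hb₄ hxy
  obtain ⟨h4, eR⟩ := frobPt_frobPt_some_two E K hxy
  obtain ⟨hφD, eφD⟩ := frobPt_some_two E K hD
  obtain ⟨hK, eK⟩ := ss_key_one (E.baseChange K) h2 hb₁ hb₂ hb₃ hb₄ hb₆ hxy h4 hD
  have e2φ : Fermat.Agent.H40.frobPt E K (Point.some x y hxy) +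
      Fermat.Agent.H40.frobPt E K (Point.some x y hxy) =
      Point.some _ _ h4 + Point.some _ _ hD := by
    rw [← map_add, eD, eφD, eK]
  have key : Fermat.Agent.H40.hasseOp E K (Point.some x y hxy) = 0 := by
    rw [Fermat.Agent.H40.hasseOp_apply, htr, eR, ZMod.card, Nat.cast_ofNat, two_zsmul,
      two_zsmul, e2φ, eD]
    abel
  rw [key, smul_zero]

/-- The Hasse relation for a curve `y² + y = x³ + x` over `𝔽₂` with trace `-2`. -/
theorem hasseRelation_ss_zero (E : WeierstrassCurve (ZMod 2)) (hΔ : E.Δ ≠ 0)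
    (ha₁ : E.a₁ = 0) (ha₂ : E.a₂ = 0) (ha₃ : E.a₃ = 1) (ha₄ : E.a₄ = 1) (ha₆ : E.a₆ = 0)
    (htr : E.traceOfFrobenius = -2) : Fermat.Agent.H40.HasseRelation E := by
  apply Fermat.Agent.H51.S58.hasseRelation_of_generic E hΔ
  intro K _ _ _ _
  refine ⟨∅, fun x y hxy _ => ?_⟩
  have h2 : (2 : K) = 0 := two_eq_zero_of_algebra_zmod_two K
  have hb₁ : (E⁄K).a₁ = 0 := by
    change algebraMap (ZMod 2) K E.a₁ = 0
    rw [ha₁, map_zero]
  have hb₂ : (E⁄K).a₂ = 0 := by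
    change algebraMap (ZMod 2) K E.a₂ = 0
    rw [ha₂, map_zero]
  have hb₃ : (E⁄K).a₃ = 1 := by
    change algebraMap (ZMod 2) K E.a₃ = 1
    rw [ha₃, map_one]
  have hb₄ : (E⁄K).a₄ = 1 := by
    change algebraMap (ZMod 2) K E.a₄ = 1
    rw [ha₄, map_one]
  have hb₆ : (E⁄K).a₆ = 0 := by
    change algebraMap (ZMod 2) K E.a₆ = 0
    rw [ha₆, map_zero]
  obtain ⟨hD, eD⟩ := ss_dbl (E.baseChange K) h2 hb₁ hb₂ hb₃ hb₄ hxy
  obtain ⟨h4, eR⟩ := frobPt_frobPt_some_two E K hxy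
  obtain ⟨hφD, eφD⟩ := frobPt_some_two E K hD
  obtain ⟨hK, eK⟩ := ss_key_zero (E.baseChange K) h2 hb₁ hb₂ hb₃ hb₄ hb₆ hxy h4 hD
  have e2φ : Fermat.Agent.H40.frobPt E K (Point.some x y hxy) +
      Fermat.Agent.H40.frobPt E K (Point.some x y hxy) =
      -(Point.some _ _ h4 + Point.some _ _ hD) := by
    rw [← map_add, eD, eφD, eK, Point.neg_some, Point.some.injEq]
    refine ⟨rfl, ?_⟩
    rw [negY_negY]
  have key : Fermat.Agent.H40.hasseOp E K (Point.some x y hxy) = 0 := by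
    rw [Fermat.Agent.H40.hasseOp_apply, htr, eR, ZMod.card, Nat.cast_ofNat, neg_smul,
      two_zsmul, two_zsmul, e2φ, eD]
    abel
  rw [key, smul_zero]

section cards

/-- `y² + y = x³ + x + 1` has no affine point over `𝔽₂`. -/
theorem card_ss111 : (⟨0, 0, 1, 1, 1⟩ : WeierstrassCurve (ZMod 2)).card = 1 := by
  unfold WeierstrassCurve.card
  have key : ∀ P : (⟨0, 0, 1, 1, 1⟩ : WeierstrassCurve (ZMod 2)).toAffine.Point, P = 0 := by
    rintro (_ | ⟨x, y, h⟩)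
    · rfl
    · exfalso
      have heq := (equation_iff x y).mp h.1
      clear h
      revert x y
      decide
  have : Subsingleton (⟨0, 0, 1, 1, 1⟩ : WeierstrassCurve (ZMod 2)).toAffine.Point :=
    ⟨fun P Q => by rw [key P, key Q]⟩
  exact Nat.card_of_subsingleton 0

theorem trace_ss111 : (⟨0, 0, 1, 1, 1⟩ : WeierstrassCurve (ZMod 2)).traceOfFrobenius = 2 := by
  unfold WeierstrassCurve.traceOfFrobenius
  rw [card_ss111, Nat.card_zmod]
  norm_num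

/-- **The Hasse relation for `y² + y = x³ + x + 1` over `𝔽₂`.** -/
theorem hasse2_ss111 :
    Fermat.Agent.H40.HasseRelation (⟨0, 0, 1, 1, 1⟩ : WeierstrassCurve (ZMod 2)) :=
  hasseRelation_ss_one _ (by decide) rfl rfl rfl rfl rfl trace_ss111

/-- `y² + y = x³ + x` has four affine points over `𝔽₂`. -/
theorem card_ss110 : (⟨0, 0, 1, 1, 0⟩ : WeierstrassCurve (ZMod 2)).card = 5 := by
  unfold WeierstrassCurve.card
  classical
  rw [Nat.card_congr (nonsingularPointEquiv _)]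
  have hiff : ∀ xy : ZMod 2 × ZMod 2,
      (⟨0, 0, 1, 1, 0⟩ : WeierstrassCurve (ZMod 2)).toAffine.Nonsingular xy.1 xy.2 ↔
        xy.2 ^ 2 + xy.2 = xy.1 ^ 3 + xy.1 := by
    intro xy
    rw [← equation_iff_nonsingular_of_Δ_ne_zero (by decide), equation_iff]
    simp
  rw [show Nat.card (WithZero {xy : ZMod 2 × ZMod 2 //
        (⟨0, 0, 1, 1, 0⟩ : WeierstrassCurve (ZMod 2)).toAffine.Nonsingular xy.1 xy.2}) =
      Nat.card (Option {xy : ZMod 2 × ZMod 2 //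
        (⟨0, 0, 1, 1, 0⟩ : WeierstrassCurve (ZMod 2)).toAffine.Nonsingular xy.1 xy.2}) from rfl,
    Finite.card_option, Nat.card_congr (Equiv.subtypeEquivRight hiff), Nat.card_eq_fintype_card]
  decide

theorem trace_ss110 : (⟨0, 0, 1, 1, 0⟩ : WeierstrassCurve (ZMod 2)).traceOfFrobenius = -2 := by
  unfold WeierstrassCurve.traceOfFrobenius
  rw [card_ss110, Nat.card_zmod]
  norm_num

/-- **The Hasse relation for `y² + y = x³ + x` over `𝔽₂`.** -/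
theorem hasse2_ss110 :
    Fermat.Agent.H40.HasseRelation (⟨0, 0, 1, 1, 0⟩ : WeierstrassCurve (ZMod 2)) :=
  hasseRelation_ss_zero _ (by decide) rfl rfl rfl rfl rfl trace_ss110

end cards

end Fermat.Agent.H5.S58
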